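import Mathlib
import Fermat.Prelude.Thm_ModularForm_sturm_bound_Gamma0

set_option autoImplicit false
open CuspForm ModularFormClass UpperHalfPlane
open ModularForm

namespace Fermat.Agent.Lib.Helper2

/-- View a cusp form as a modular form. -/
def cuspToModularForm {Γ : Subgroup (GL (Fin 2) ℝ)} {k : ℤ} (f : CuspForm Γ k) :
    ModularForm Γ k where
  toSlashInvariantForm := f.toSlashInvariantForm
  holo' := f.holo'
  bdd_at_cusps' := fun hc => ModularFormClass.bdd_at_cusps f hc

@[simp] theorem coe_cuspToModularForm {Γ : Subgroup (GL (Fin 2) ℝ)} {k : ℤ} (f : CuspForm Γ k) :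
    ⇑(cuspToModularForm f) = ⇑f := rfl

/-- A weight `k` cusp form on `Γ₀(N)` vanishes as soon as `k * index < 12`
(Sturm bound with only the constant coefficient needed). -/
theorem cuspForm_Gamma0_eq_zero_of_small_index (N : ℕ) [NeZero N] {k : ℤ}
    (hk : (k * (CongruenceSubgroup.Gamma0 N).index).toNat / 12 = 0)
    (f : CuspForm (CongruenceSubgroup.Gamma0 N) k) : f = 0 := by
  have h0 : cuspToModularForm f = 0 := by
    refine ModularForm.sturm_bound_Gamma0 N (cuspToModularForm f) ?_
    intro n hn
    rw [hk] at hn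
    obtain rfl : n = 0 := Nat.le_zero.mp hn
    have h1 : (1 : ℝ) ∈ (CongruenceSubgroup.Gamma0 N : Subgroup (GL (Fin 2) ℝ)).strictPeriods := by
      simp [CongruenceSubgroup.strictPeriods_Gamma0]
    exact CuspFormClass.qExpansion_coeff_zero f one_pos h1
  ext z
  have := congrArg (fun g : ModularForm _ k => g z) h0
  simpa using this

theorem Gamma0_one_eq_top : CongruenceSubgroup.Gamma0 1 = ⊤ := by
  ext x
  simp only [CongruenceSubgroup.Gamma0_mem, Subgroup.mem_top, iff_true]
  exact Subsingleton.elim _ _

end Fermat.Agent.Lib.Helper2
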