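import Mathlib

set_option autoImplicit false
open scoped MatrixGroups

namespace Fermat.Agent.Lib.Helper2

/-- first column mod 2 -/
def colModTwo (g : SL(2, ℤ)) : ZMod 2 × ZMod 2 := ((g 0 0 : ZMod 2), (g 1 0 : ZMod 2))

theorem colModTwo_eq_iff (g g' : SL(2, ℤ)) :
    g⁻¹ * g' ∈ CongruenceSubgroup.Gamma0 2 ↔ colModTwo g = colModTwo g' := by
  rw [CongruenceSubgroup.Gamma0_mem]
  have hg := g.det_coe
  have hg' := g'.det_coe
  rw [Matrix.det_fin_two] at hg hg'
  have hgm : ((g 0 0 : ZMod 2)) * (g 1 1 : ZMod 2) - (g 0 1 : ZMod 2) * (g 1 0 : ZMod 2) = 1 := by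
    exact_mod_cast congrArg (Int.cast : ℤ → ZMod 2) hg
  have hgm' : ((g' 0 0 : ZMod 2)) * (g' 1 1 : ZMod 2) - (g' 0 1 : ZMod 2) * (g' 1 0 : ZMod 2) = 1 := by
    exact_mod_cast congrArg (Int.cast : ℤ → ZMod 2) hg'
  have hentry : ((g⁻¹ * g' : SL(2, ℤ)) 1 0 : ℤ) = - g 1 0 * g' 0 0 + g 0 0 * g' 1 0 := by
    rw [Matrix.SpecialLinearGroup.coe_mul, Matrix.SpecialLinearGroup.SL2_inv_expl]
    rw [Matrix.mul_apply, Fin.sum_univ_two]
    simp
  rw [hentry]
  simp only [colModTwo, Prod.mk.injEq]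
  push_cast
  generalize (g 0 0 : ZMod 2) = a at *
  generalize (g 0 1 : ZMod 2) = b at *
  generalize (g 1 0 : ZMod 2) = c at *
  generalize (g 1 1 : ZMod 2) = d at *
  generalize (g' 0 0 : ZMod 2) = a' at *
  generalize (g' 0 1 : ZMod 2) = b' at *
  generalize (g' 1 0 : ZMod 2) = c' at *
  generalize (g' 1 1 : ZMod 2) = d' at *
  clear hg hg' hentry
  revert a b c d a' b' c' d'
  decide

theorem index_Gamma0_two_le : (CongruenceSubgroup.Gamma0 2).index ≤ 4 := by
  rw [Subgroup.index_eq_card]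
  let φ : SL(2, ℤ) ⧸ CongruenceSubgroup.Gamma0 2 → ZMod 2 × ZMod 2 :=
    Quotient.lift colModTwo (fun g g' h => by
      rw [← colModTwo_eq_iff]
      exact QuotientGroup.leftRel_apply.mp h)
  have hφ : Function.Injective φ := by
    intro x y
    induction x using QuotientGroup.induction_on with | _ g => ?_
    induction y using QuotientGroup.induction_on with | _ g' => ?_
    intro h
    have h' : colModTwo g = colModTwo g' := h
    rw [← colModTwo_eq_iff] at h'
    exact QuotientGroup.eq.mpr h'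
  have := Nat.card_le_card_of_injective φ hφ
  simpa using this

end Fermat.Agent.Lib.Helper2
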